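import Mathlib
import Fermat.Agent.LT.T7.H140.DownBasisQSpec
import Fermat.Agent.LT.T7.H863.WSub

/-!
# Row LT, tower T7, leaf T7.L2Q.3.7.2 `SDQ140.WSubQC` (registry row 2348; helper250)

OFF-MAIN.  Typed against byte-identical copies of `LT/T7/H140/DownBasisQSpec.lean` (helper140,
sha256 `ccac08d3…`), `LT/T7/H826/Level2Q.lean` (`3acaa310…`), `LT/T7/H863/WSub.lean` (helper863,
`f64a32cd…`: the same leaf over a general field, assets `isCuspFn_add_863`, …),
`LT/T2/H314/CommCore.lean` (helper314, `faaf37d0…`: continuity of local families) and their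
closure.

`wSubQC250 n : Fermat.Agent.LT.T7.SDQ140.WSubQC n` VERBATIM, UNCONDITIONAL, both `n`: the cusp
functions of type `n` over `ℚ`, the invariant cusp functions and the eigen-classes are closed
under `+` and scalar multiplication, and `0` is an invariant cusp function.
-/

set_option autoImplicit false
set_option linter.unusedSectionVars false

open AutomorphicForm IsDedekindDomain NumberField MeasureTheory

noncomputable section

namespace Fermat.Agent.LT.T7.H250

open Fermat.Agent.LT Fermat.Agent.LT.H556 Fermat.Agent.LT.H556.A0 Fermat.Agent.LT.H670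
open Fermat.Agent.LT.T7 Fermat.Agent.LT.T7.L2Q Fermat.Agent.LT.T7.SDQ140

/-! ## 1. Invariant cusp functions -/

theorem isWFnQ_zero250q (n : QWt) (𝔫 : Ideal (𝓞 ℚ)) (r : G ℚ) (u : HeightOneSpectrum (𝓞 ℚ)) :
    IsWFnQ n 𝔫 r u (0 : G ℚ → ℂ) where
  cusp := H863.isCuspFn_zero_863 𝔫 n.type r
  arch_scalar := fun _ _ _ _ => rfl
  iw := fun _ _ _ _ _ => rfl

theorem isWFnQ_add250q {n : QWt} {𝔫 : Ideal (𝓞 ℚ)} {r : G ℚ} {u : HeightOneSpectrum (𝓞 ℚ)}
    {f f' : G ℚ → ℂ} (h : IsWFnQ n 𝔫 r u f) (h' : IsWFnQ n 𝔫 r u f') :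
    IsWFnQ n 𝔫 r u (f + f') where
  cusp := H863.isCuspFn_add_863 h.cusp h'.cusp
  arch_scalar := fun w z hz g => by
    simp only [Pi.add_apply, h.arch_scalar w z hz g, h'.arch_scalar w z hz g]
  iw := fun y h1 h2 h3 x => by
    simp only [Pi.add_apply, h.iw y h1 h2 h3 x, h'.iw y h1 h2 h3 x]

theorem isWFnQ_smul250q {n : QWt} {𝔫 : Ideal (𝓞 ℚ)} {r : G ℚ} {u : HeightOneSpectrum (𝓞 ℚ)}
    {f : G ℚ → ℂ} (a : ℂ) (h : IsWFnQ n 𝔫 r u f) : IsWFnQ n 𝔫 r u (a • f) where
  cusp := H863.isCuspFn_smul_863 a h.cusp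
  arch_scalar := fun w z hz g => by
    simp only [Pi.smul_apply, h.arch_scalar w z hz g]
  iw := fun y h1 h2 h3 x => by
    simp only [Pi.smul_apply, h.iw y h1 h2 h3 x]

/-! ## 2. Circle means -/

theorem continuous_rotC250q : Continuous QOut.rotC := by
  refine continuous_matrix fun i j => ?_
  fin_cases i <;> fin_cases j <;> simp [QOut.rotC] <;> fun_prop

/-- The parametrisation of a circle (convention of QOut) is continuous. -/
theorem continuous_circleC250q {w : InfinitePlace ℚ} {t : ℝ} {Y : ℝ → G ℚ}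
    (hY : ∀ θ : ℝ, IsLocalAtInf w (Y θ) ∧ infComp w (Y θ) = QOut.rotC θ * torus t) :
    Continuous Y := by
  refine T2.H314.continuous_of_localAtInf314 w _ (fun θ => (hY θ).1) fun i j => ?_
  have hm : Continuous fun θ : ℝ => QOut.rotC θ * torus t :=
    continuous_rotC250q.matrix_mul continuous_const
  have : (fun θ : ℝ => infComp w (Y θ) i j) = fun θ : ℝ => (QOut.rotC θ * torus t) i j := by
    funext θ
    rw [(hY θ).2]
  rw [this]
  exact (continuous_apply_apply i j).comp hm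

theorem meanEigR0_add250q {f f' : G ℚ → ℂ} (hf : Continuous f) (hf' : Continuous f')
    {w : InfinitePlace ℚ} {m : ℝ → ℂ} (h : MeanEigR0 f w m) (h' : MeanEigR0 f' w m) :
    MeanEigR0 (f + f') w m := by
  intro t ht Y hY g
  have hYc : Continuous Y := T2.H314.continuous_circle314 hY
  have e : ∀ θ : ℝ, (f + f') (g * Y θ) = f (g * Y θ) + f' (g * Y θ) := fun θ => rfl
  have h1 : IntervalIntegrable (fun θ : ℝ => f (g * Y θ)) volume 0 (2 * Real.pi) :=
    (show Continuous fun θ : ℝ => f (g * Y θ) from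
      hf.comp (continuous_const.mul hYc)).intervalIntegrable _ _
  have h2 : IntervalIntegrable (fun θ : ℝ => f' (g * Y θ)) volume 0 (2 * Real.pi) :=
    (show Continuous fun θ : ℝ => f' (g * Y θ) from
      hf'.comp (continuous_const.mul hYc)).intervalIntegrable _ _
  simp only [e]
  rw [intervalIntegral.integral_add h1 h2,
    h t ht Y hY g, h' t ht Y hY g, Pi.add_apply, mul_add]

theorem meanEigR0_smul250q {f : G ℚ → ℂ} {w : InfinitePlace ℚ} {m : ℝ → ℂ} (a : ℂ)
    (h : MeanEigR0 f w m) : MeanEigR0 (a • f) w m := by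
  intro t ht Y hY g
  have e : ∀ θ : ℝ, (a • f) (g * Y θ) = a * f (g * Y θ) := fun θ => rfl
  simp only [e, intervalIntegral.integral_const_mul]
  rw [h t ht Y hY g, Pi.smul_apply, smul_eq_mul]
  ring

theorem meanEigR1_add250q {f f' : G ℚ → ℂ} (hf : Continuous f) (hf' : Continuous f')
    {w : InfinitePlace ℚ} {m : ℝ → ℂ} (h : MeanEigR1 f w m) (h' : MeanEigR1 f' w m) :
    MeanEigR1 (f + f') w m := by
  intro t ht Y hY g
  have hYc : Continuous Y := continuous_circleC250q hY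
  have hexp : Continuous fun θ : ℝ => Complex.exp (-(Complex.I * ((θ : ℝ) : ℂ))) := by
    fun_prop
  have e : ∀ θ : ℝ, Complex.exp (-(Complex.I * ((θ : ℝ) : ℂ))) * (f + f') (g * Y θ)
      = Complex.exp (-(Complex.I * ((θ : ℝ) : ℂ))) * f (g * Y θ)
        + Complex.exp (-(Complex.I * ((θ : ℝ) : ℂ))) * f' (g * Y θ) :=
    fun θ => by rw [Pi.add_apply, mul_add]
  have h1 : IntervalIntegrable
      (fun θ : ℝ => Complex.exp (-(Complex.I * ((θ : ℝ) : ℂ))) * f (g * Y θ))
      volume 0 (2 * Real.pi) :=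
    (show Continuous fun θ : ℝ => Complex.exp (-(Complex.I * ((θ : ℝ) : ℂ))) * f (g * Y θ) from
      hexp.mul (hf.comp (continuous_const.mul hYc))).intervalIntegrable _ _
  have h2 : IntervalIntegrable
      (fun θ : ℝ => Complex.exp (-(Complex.I * ((θ : ℝ) : ℂ))) * f' (g * Y θ))
      volume 0 (2 * Real.pi) :=
    (show Continuous fun θ : ℝ => Complex.exp (-(Complex.I * ((θ : ℝ) : ℂ))) * f' (g * Y θ) from
      hexp.mul (hf'.comp (continuous_const.mul hYc))).intervalIntegrable _ _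
  simp only [e]
  rw [intervalIntegral.integral_add h1 h2,
    h t ht Y hY g, h' t ht Y hY g, Pi.add_apply, mul_add]

theorem meanEigR1_smul250q {f : G ℚ → ℂ} {w : InfinitePlace ℚ} {m : ℝ → ℂ} (a : ℂ)
    (h : MeanEigR1 f w m) : MeanEigR1 (a • f) w m := by
  intro t ht Y hY g
  have e : ∀ θ : ℝ, Complex.exp (-(Complex.I * ((θ : ℝ) : ℂ))) * (a • f) (g * Y θ)
      = a * (Complex.exp (-(Complex.I * ((θ : ℝ) : ℂ))) * f (g * Y θ)) :=
    fun θ => by rw [Pi.smul_apply, smul_eq_mul]; ring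
  simp only [e, intervalIntegral.integral_const_mul]
  rw [h t ht Y hY g, Pi.smul_apply, smul_eq_mul]
  ring

theorem meanEig_add250q (n : QWt) {f f' : G ℚ → ℂ} (hf : Continuous f) (hf' : Continuous f')
    {w : InfinitePlace ℚ} {m : ℝ → ℂ} (h : n.MeanEig f w m) (h' : n.MeanEig f' w m) :
    n.MeanEig (f + f') w m := by
  cases n
  · exact meanEigR0_add250q hf hf' h h'
  · exact meanEigR1_add250q hf hf' h h'

theorem meanEig_smul250q (n : QWt) {f : G ℚ → ℂ} {w : InfinitePlace ℚ} {m : ℝ → ℂ} (a : ℂ)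
    (h : n.MeanEig f w m) : n.MeanEig (a • f) w m := by
  cases n
  · exact meanEigR0_smul250q a h
  · exact meanEigR1_smul250q a h

/-! ## 3. The eigen-classes -/

theorem isEigFnQ_add250q {n : QWt} {𝔫 : Ideal (𝓞 ℚ)} {r : G ℚ} {u : HeightOneSpectrum (𝓞 ℚ)}
    {c : EigData ℚ} {f f' : G ℚ → ℂ} (h : IsEigFnQ n 𝔫 r u f c) (h' : IsEigFnQ n 𝔫 r u f' c) :
    IsEigFnQ n 𝔫 r u (f + f') c where
  inv := isWFnQ_add250q h.inv h'.inv
  hecke := fun v hv => H863.isHeckeEigenAt_add_863 (h.hecke v hv) (h'.hecke v hv)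
  mean := fun w => meanEig_add250q n h.inv.cusp.cont h'.inv.cusp.cont (h.mean w) (h'.mean w)

theorem isEigFnQ_smul250q {n : QWt} {𝔫 : Ideal (𝓞 ℚ)} {r : G ℚ} {u : HeightOneSpectrum (𝓞 ℚ)}
    {c : EigData ℚ} {f : G ℚ → ℂ} (a : ℂ) (h : IsEigFnQ n 𝔫 r u f c) :
    IsEigFnQ n 𝔫 r u (a • f) c where
  inv := isWFnQ_smul250q a h.inv
  hecke := fun v hv => H863.isHeckeEigenAt_smul_863 a (h.hecke v hv)
  mean := fun w => meanEig_smul250q n a (h.mean w)

/-! ## 4. The leaf -/

/-- **T7.L2Q.3.7.2** (`SDQ140.WSubQC`): `V`, `W` and the eigen-classes of type `n` over `ℚ` are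
linear subspaces. -/
theorem wSubQC250 (n : QWt) : WSubQC n := fun 𝔫 r u =>
  { zeroW := isWFnQ_zero250q n 𝔫 r u
    addV := fun _ _ h h' => H863.isCuspFn_add_863 h h'
    smulV := fun a _ h => H863.isCuspFn_smul_863 a h
    addW := fun _ _ h h' => isWFnQ_add250q h h'
    smulW := fun a _ h => isWFnQ_smul250q a h
    addC := fun _ _ _ h h' => isEigFnQ_add250q h h'
    smulC := fun _ a _ h => isEigFnQ_smul250q a h }

/-- Type check against the frozen Prop. -/
example (n : Fermat.Agent.LT.T7.L2Q.QWt) : Fermat.Agent.LT.T7.SDQ140.WSubQC n := wSubQC250 n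

end Fermat.Agent.LT.T7.H250

end
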