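import Mathlib
import Fermat.Agent.LT.T7.H62.RigidAut

/-!
# Row LT, tower T7, node T7.14, leaf T7.14.5 `Rigid.NormPosC` (registry row 1521; helper250)

OFF-MAIN.  Typed against byte-identical copies of `LT/T7/H62/RigidAut.lean` (helper62,
sha256 `e1add0c1…`), `LT/T5/Spec.lean` v4 (`f2d97e70…`), `LT/H556/A0.lean` (`66d3374a…`) and their
closure.

`normPosC250 K : Fermat.Agent.LT.T7.Rigid.NormPosC K` VERBATIM, UNCONDITIONAL (for every number
field `K`; the hypothesis `TotCplx K` is not used): a nonzero `S`-form has nonzero norm on every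
frame.

## Proof

`U = {φ ≠ 0}` is open and not empty, so `μ U > 0`.  For every `g` there are `m ∈ ℤ` and
`γ ∈ GL₂(K)` with `γ g ζ_m ∈ F` (`ζ_m` = the positive real scalar `ρ^m` at every infinite place,
`‖det ζ_m‖_𝔸 = 2^m`; `F` is a fundamental domain of `GL₂(K)` in the slab), and `φ (γ g ζ_m) = φ g`.
So `U` is covered by the countably many sets `T_{γ,m}⁻¹ (U ∩ F)`, `T_{γ,m} g = γ g ζ_m`, and
`μ (T_{γ,m}⁻¹ A) = μ A` (`μ` is left and right invariant).  Hence `μ (U ∩ F) > 0` and
`∫_F |φ|² dμ > 0`.  No topology of the slab, no continuity of the module is needed; of the module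
only positivity on the ideles and `‖x c‖ = ‖x‖ ∏_w |c_w|^{[K_w:ℝ]}` for `c` supported at infinity.
-/

set_option autoImplicit false
set_option linter.unusedSectionVars false

open IsDedekindDomain NumberField MeasureTheory AutomorphicForm
open Fermat.Agent.LT.H556.A0
open Fermat.Agent.LT

noncomputable section
namespace Fermat.Agent.LT.T7.H250

variable {K : Type} [Field K] [NumberField K]

attribute [local instance] Fermat.Agent.LT.T5.instMeasurableSpaceG
attribute [local instance] Classical.propDecidable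

/-! ## 1. Real scalars at the infinite places -/

/-- Every real number is in the image of the completion at an infinite place. -/
theorem exists_real_completion250n (w : InfinitePlace K) (r : ℝ) :
    ∃ x : w.Completion, InfinitePlace.Completion.extensionEmbedding w x = (r : ℂ) := by
  have hcl : IsClosed (Set.range (InfinitePlace.Completion.extensionEmbedding w)) :=
    (InfinitePlace.Completion.isometry_extensionEmbedding w).isClosedEmbedding.isClosed_range
  have hsub : Set.range (fun q : ℚ => ((q : ℝ) : ℂ))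
      ⊆ Set.range (InfinitePlace.Completion.extensionEmbedding w) := by
    rintro _ ⟨q, rfl⟩
    refine ⟨(q : w.Completion), ?_⟩
    rw [map_ratCast]
    simp
  have h1 : r ∈ closure (Set.range ((↑) : ℚ → ℝ)) := Rat.denseRange_cast r
  have h2 : (r : ℂ) ∈ closure (Set.range (fun q : ℚ => ((q : ℝ) : ℂ))) := by
    have h3 := map_mem_closure Complex.continuous_ofReal h1
      (t := Set.range (fun q : ℚ => ((q : ℝ) : ℂ))) (by
        rintro _ ⟨q, rfl⟩
        exact ⟨q, rfl⟩)
    exact h3
  exact closure_minimal hsub hcl h2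

/-- The element `r` of the completion at `w`. -/
def rComp250n (w : InfinitePlace K) (r : ℝ) : w.Completion :=
  Classical.choose (exists_real_completion250n w r)

theorem ext_rComp250n (w : InfinitePlace K) (r : ℝ) :
    InfinitePlace.Completion.extensionEmbedding w (rComp250n w r) = (r : ℂ) :=
  Classical.choose_spec (exists_real_completion250n w r)

theorem rComp250n_mul (w : InfinitePlace K) (r s : ℝ) :
    rComp250n w (r * s) = rComp250n w r * rComp250n w s := by
  apply (InfinitePlace.Completion.extensionEmbedding w).injective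
  rw [map_mul, ext_rComp250n, ext_rComp250n, ext_rComp250n, Complex.ofReal_mul]

theorem rComp250n_one (w : InfinitePlace K) : rComp250n w 1 = 1 := by
  apply (InfinitePlace.Completion.extensionEmbedding w).injective
  rw [map_one, ext_rComp250n, Complex.ofReal_one]

theorem norm_rComp250n (w : InfinitePlace K) (r : ℝ) : ‖rComp250n w r‖ = |r| := by
  have h1 := (InfinitePlace.Completion.isometry_extensionEmbedding w).norm_map_of_map_zero
    (map_zero _) (rComp250n w r)
  rw [← h1, ext_rComp250n]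
  simp

/-- The adele which is `ρ w` at the infinite place `w` and `1` at every finite place. -/
def rAd250n (ρ : InfinitePlace K → ℝ) : Adl K :=
  ((fun w => rComp250n w (ρ w) : InfiniteAdeleRing K), (1 : FiniteAdeleRing (𝓞 K) K))

theorem rAd250n_fst (ρ : InfinitePlace K → ℝ) (w : InfinitePlace K) :
    (rAd250n ρ).1 w = rComp250n w (ρ w) := rfl

theorem rAd250n_snd (ρ : InfinitePlace K → ℝ) : (rAd250n ρ).2 = 1 := rfl

theorem rAd250n_mul (ρ σ : InfinitePlace K → ℝ) :
    rAd250n ρ * rAd250n σ = rAd250n (fun w => ρ w * σ w) := by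
  apply Prod.ext
  · funext w
    show rComp250n w (ρ w) * rComp250n w (σ w) = rComp250n w (ρ w * σ w)
    rw [rComp250n_mul]
  · show (1 : FiniteAdeleRing (𝓞 K) K) * 1 = 1
    rw [one_mul]

theorem rAd250n_one : rAd250n (K := K) (fun _ => 1) = 1 := by
  apply Prod.ext
  · funext w
    show rComp250n w 1 = 1
    rw [rComp250n_one]
  · rfl

/-- The idele which is `ρ w ≠ 0` at the infinite place `w` and `1` at every finite place. -/
def rId250n (ρ : InfinitePlace K → ℝ) (hρ : ∀ w, ρ w ≠ 0) : (Adl K)ˣ where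
  val := rAd250n ρ
  inv := rAd250n (fun w => (ρ w)⁻¹)
  val_inv := by
    rw [rAd250n_mul]
    have : (fun w => ρ w * (ρ w)⁻¹) = fun _ => (1 : ℝ) := funext fun w => mul_inv_cancel₀ (hρ w)
    rw [this, rAd250n_one]
  inv_val := by
    rw [rAd250n_mul]
    have : (fun w => (ρ w)⁻¹ * ρ w) = fun _ => (1 : ℝ) := funext fun w => inv_mul_cancel₀ (hρ w)
    rw [this, rAd250n_one]

theorem rId250n_mul (ρ σ : InfinitePlace K → ℝ) (hρ : ∀ w, ρ w ≠ 0) (hσ : ∀ w, σ w ≠ 0) :
    rId250n ρ hρ * rId250n σ hσ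
      = rId250n (fun w => ρ w * σ w) (fun w => mul_ne_zero (hρ w) (hσ w)) := by
  apply Units.ext
  show rAd250n ρ * rAd250n σ = rAd250n (fun w => ρ w * σ w)
  exact rAd250n_mul ρ σ

/-- The scalar matrix `ρ w` at the infinite place `w`, identity at the finite places. -/
def zR250n (ρ : InfinitePlace K → ℝ) (hρ : ∀ w, ρ w ≠ 0) : G K :=
  Units.map (Matrix.scalar (Fin 2) : Adl K →+* Matrix (Fin 2) (Fin 2) (Adl K)).toMonoidHom
    (rId250n ρ hρ)

theorem zR250n_val (ρ : InfinitePlace K → ℝ) (hρ : ∀ w, ρ w ≠ 0) :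
    ((zR250n ρ hρ : G K) : Matrix (Fin 2) (Fin 2) (Adl K))
      = Matrix.diagonal (fun _ => rAd250n ρ) := rfl

theorem zR250n_apply (ρ : InfinitePlace K → ℝ) (hρ : ∀ w, ρ w ≠ 0) (i j : Fin 2) :
    ((zR250n ρ hρ : G K) : Matrix (Fin 2) (Fin 2) (Adl K)) i j
      = if i = j then rAd250n ρ else 0 := by
  rw [zR250n_val, Matrix.diagonal_apply]

theorem zR250n_congr {ρ σ : InfinitePlace K → ℝ} (h : ρ = σ) (hρ : ∀ w, ρ w ≠ 0)
    (hσ : ∀ w, σ w ≠ 0) : zR250n ρ hρ = zR250n σ hσ := by
  subst h
  rfl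

theorem zR250n_mul (ρ σ : InfinitePlace K → ℝ) (hρ : ∀ w, ρ w ≠ 0) (hσ : ∀ w, σ w ≠ 0) :
    zR250n ρ hρ * zR250n σ hσ
      = zR250n (fun w => ρ w * σ w) (fun w => mul_ne_zero (hρ w) (hσ w)) := by
  unfold zR250n
  rw [← map_mul, rId250n_mul]

theorem zR250n_one : zR250n (K := K) (fun _ => 1) (fun _ => one_ne_zero) = 1 := by
  apply Units.ext
  rw [zR250n_val, rAd250n_one]
  exact Matrix.diagonal_one

theorem trivAtFin_zR250n (ρ : InfinitePlace K → ℝ) (hρ : ∀ w, ρ w ≠ 0)
    (v : HeightOneSpectrum (𝓞 K)) : TrivAtFin v (zR250n ρ hρ) := by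
  show finComp v (zR250n ρ hρ) = 1
  refine Matrix.ext fun i j => ?_
  show (((zR250n ρ hρ : G K) : Matrix (Fin 2) (Fin 2) (Adl K)) i j).2 v = _
  rw [zR250n_apply]
  by_cases hij : i = j
  · rw [if_pos hij, rAd250n_snd, hij, Matrix.one_apply_eq]
    rfl
  · rw [if_neg hij, Matrix.one_apply_ne hij]
    rfl

theorem infComp_zR250n (ρ : InfinitePlace K → ℝ) (hρ : ∀ w, ρ w ≠ 0) (w : InfinitePlace K) :
    infComp w (zR250n ρ hρ) = Matrix.diagonal (fun _ => (ρ w : ℂ)) := by
  refine Matrix.ext fun i j => ?_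
  show InfinitePlace.Completion.extensionEmbedding w
    ((((zR250n ρ hρ : G K) : Matrix (Fin 2) (Fin 2) (Adl K)) i j).1 w) = _
  rw [zR250n_apply, Matrix.diagonal_apply]
  by_cases hij : i = j
  · rw [if_pos hij, if_pos hij, rAd250n_fst, ext_rComp250n]
  · rw [if_neg hij, if_neg hij]
    show InfinitePlace.Completion.extensionEmbedding w (0 : w.Completion) = 0
    exact map_zero _

theorem trivAtInf_zR250n (ρ : InfinitePlace K → ℝ) (hρ : ∀ w, ρ w ≠ 0) (w : InfinitePlace K)
    (h : ρ w = 1) : TrivAtInf w (zR250n ρ hρ) := by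
  intro i j
  rw [zR250n_apply]
  by_cases hij : i = j
  · rw [if_pos hij, rAd250n_fst, h, rComp250n_one, hij, Matrix.one_apply_eq]
  · rw [if_neg hij, Matrix.one_apply_ne hij]
    rfl

theorem isArchPosScalar_zR250n (ρ : InfinitePlace K → ℝ) (hρ : ∀ w, ρ w ≠ 0)
    (w₀ : InfinitePlace K) (h1 : ∀ w, w ≠ w₀ → ρ w = 1) (h0 : 0 < ρ w₀) :
    IsArchPosScalar w₀ (zR250n ρ hρ) :=
  ⟨⟨fun w hw => trivAtInf_zR250n ρ hρ w (h1 w hw), fun v => trivAtFin_zR250n ρ hρ v⟩,
    ρ w₀, h0, infComp_zR250n ρ hρ w₀⟩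

/-- A function which is right invariant under the positive scalars at every single infinite
place is right invariant under the positive scalars supported on a finite set of places. -/
theorem inv_zR_finset250n {φ : G K → ℂ}
    (hφ : ∀ (w : InfinitePlace K) (z : G K), IsArchPosScalar w z → ∀ g : G K, φ (g * z) = φ g)
    (r : ℝ) (hr : 0 < r) (S : Finset (InfinitePlace K)) :
    ∀ g : G K, φ (g * zR250n (fun w => if w ∈ S then r else 1)
      (fun w => by by_cases h : w ∈ S <;> simp [h, hr.ne'])) = φ g := by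
  induction S using Finset.induction_on with
  | empty =>
    intro g
    have e : zR250n (K := K) (fun w => if w ∈ (∅ : Finset (InfinitePlace K)) then r else 1)
        (fun w => by by_cases h : w ∈ (∅ : Finset (InfinitePlace K)) <;> simp [h, hr.ne']) = 1 := by
      rw [← zR250n_one]
      exact zR250n_congr (funext fun w => by simp) _ _
    rw [e, mul_one]
  | insert w₀ S hw₀ ih =>
    intro g
    have hsingle : ∀ w, (if w = w₀ then r else (1 : ℝ)) ≠ 0 := fun w => by
      by_cases h : w = w₀ <;> simp [h, hr.ne']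
    have e : zR250n (K := K) (fun w => if w ∈ insert w₀ S then r else 1)
        (fun w => by by_cases h : w ∈ insert w₀ S <;> simp [h, hr.ne'])
        = zR250n (fun w => if w ∈ S then r else 1)
            (fun w => by by_cases h : w ∈ S <;> simp [h, hr.ne'])
          * zR250n (fun w => if w = w₀ then r else 1) hsingle := by
      rw [zR250n_mul]
      refine zR250n_congr (funext fun w => ?_) _ _
      by_cases h : w = w₀
      · subst h
        simp [hw₀]
      · simp [h]
    rw [e, ← mul_assoc,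
      hφ w₀ _ (isArchPosScalar_zR250n _ hsingle w₀ (fun w hw => by simp [hw]) (by simp [hr])),
      ih g]

/-- The positive real scalar `r` at every infinite place. -/
def cR250n (r : ℝ) (hr : r ≠ 0) : G K := zR250n (fun _ => r) (fun _ => hr)

theorem inv_cR250n {φ : G K → ℂ}
    (hφ : ∀ (w : InfinitePlace K) (z : G K), IsArchPosScalar w z → ∀ g : G K, φ (g * z) = φ g)
    (r : ℝ) (hr : 0 < r) (g : G K) : φ (g * cR250n r hr.ne') = φ g := by
  have h := inv_zR_finset250n hφ r hr Finset.univ g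
  have e : zR250n (K := K) (fun w => if w ∈ (Finset.univ : Finset (InfinitePlace K)) then r else 1)
      (fun w => by
        by_cases h : w ∈ (Finset.univ : Finset (InfinitePlace K)) <;> simp [h, hr.ne'])
      = cR250n r hr.ne' :=
    zR250n_congr (funext fun w => by simp) _ _
  rwa [e] at h

/-! ## 2. The module of the determinant -/

/-- The module of the determinant. -/
def detN250n (g : G K) : ℝ :=
  T5.adNorm (Matrix.det (g : Matrix (Fin 2) (Fin 2) (Adl K)))

theorem mem_slab_iff250n (g : G K) : g ∈ T5.slab K ↔ 1 ≤ detN250n g ∧ detN250n g < 2 :=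
  Iff.rfl

theorem finprod_pos250n {ι : Type*} (f : ι → ℝ) (hf : ∀ i, 0 < f i) : 0 < ∏ᶠ i, f i := by
  by_cases hfin : (Function.mulSupport f).Finite
  · rw [finprod_eq_prod f hfin]
    exact Finset.prod_pos fun i _ => hf i
  · rw [finprod_of_infinite_mulSupport hfin]
    exact one_pos

/-- The module of an idele is positive. -/
theorem adNorm_pos250n (x : (Adl K)ˣ) : 0 < T5.adNorm ((x : (Adl K)ˣ) : Adl K) := by
  unfold T5.adNorm
  have h1 : ∀ w : InfinitePlace K, ((x : Adl K).1 w) ≠ 0 := by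
    intro w h
    have e : ((x : Adl K) * ((x⁻¹ : (Adl K)ˣ) : Adl K)).1 w = 1 := by
      rw [Units.mul_inv]
      rfl
    have e' : ((x : Adl K) * ((x⁻¹ : (Adl K)ˣ) : Adl K)).1 w
        = (x : Adl K).1 w * ((x⁻¹ : (Adl K)ˣ) : Adl K).1 w := rfl
    rw [e', h, zero_mul] at e
    exact zero_ne_one e
  have h2 : ∀ v : HeightOneSpectrum (𝓞 K), ((x : Adl K).2 v) ≠ 0 := by
    intro v h
    have e : ((x : Adl K) * ((x⁻¹ : (Adl K)ˣ) : Adl K)).2 v = 1 := by
      rw [Units.mul_inv]
      rfl
    have e' : ((x : Adl K) * ((x⁻¹ : (Adl K)ˣ) : Adl K)).2 v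
        = (x : Adl K).2 v * ((x⁻¹ : (Adl K)ˣ) : Adl K).2 v := rfl
    rw [e', h, zero_mul] at e
    exact zero_ne_one e
  refine mul_pos (Finset.prod_pos fun w _ => pow_pos (norm_pos_iff.2 (h1 w)) _)
    (finprod_pos250n _ fun v => norm_pos_iff.2 (h2 v))

theorem detN250n_pos (g : G K) : 0 < detN250n g := by
  have h := adNorm_pos250n (Matrix.GeneralLinearGroup.det g)
  rwa [Matrix.GeneralLinearGroup.val_det_apply] at h

/-- The module of the product with an adele supported at the infinite places. -/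
theorem adNorm_mul_rAd250n (x : Adl K) (σ : InfinitePlace K → ℝ) :
    T5.adNorm (x * rAd250n σ) = T5.adNorm x * ∏ w : InfinitePlace K, |σ w| ^ w.mult := by
  unfold T5.adNorm
  have h1 : ∀ w : InfinitePlace K, ‖(x * rAd250n σ).1 w‖ ^ w.mult
      = ‖x.1 w‖ ^ w.mult * |σ w| ^ w.mult := by
    intro w
    have e : (x * rAd250n σ).1 w = x.1 w * rComp250n w (σ w) := rfl
    rw [e, norm_mul, norm_rComp250n, mul_pow]
  have h2 : (x * rAd250n σ).2 = x.2 := by
    show x.2 * (1 : FiniteAdeleRing (𝓞 K) K) = x.2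
    rw [mul_one]
  simp only [h1, h2]
  rw [Finset.prod_mul_distrib]
  ring

theorem detN250n_mul_zR (g : G K) (ρ : InfinitePlace K → ℝ) (hρ : ∀ w, ρ w ≠ 0) :
    detN250n (g * zR250n ρ hρ)
      = detN250n g * ∏ w : InfinitePlace K, |ρ w * ρ w| ^ w.mult := by
  unfold detN250n
  rw [Units.val_mul, Matrix.det_mul, zR250n_val, Matrix.det_diagonal, Fin.prod_univ_two,
    rAd250n_mul, adNorm_mul_rAd250n]

theorem detN250n_mul_cR (g : G K) (r : ℝ) (hr : r ≠ 0) :
    detN250n (g * cR250n r hr) = detN250n g * (|r| ^ Module.finrank ℚ K) ^ 2 := by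
  unfold cR250n
  rw [detN250n_mul_zR, Finset.prod_pow_eq_pow_sum, InfinitePlace.sum_mult_eq, abs_mul, ← sq,
    ← pow_mul, ← pow_mul, mul_comm 2 (Module.finrank ℚ K)]

/-! ## 3. The discrete ray -/

/-- The positive real number with `ρ ^ (2 [K : ℚ]) = 2`. -/
def rho250n (K : Type) [Field K] [NumberField K] : ℝ :=
  (2 : ℝ) ^ (((Module.finrank ℚ K * 2 : ℕ) : ℝ)⁻¹)

theorem rho250n_pos (K : Type) [Field K] [NumberField K] : 0 < rho250n K :=
  Real.rpow_pos_of_pos (by norm_num) _

theorem rho250n_pow (K : Type) [Field K] [NumberField K] :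
    rho250n K ^ (Module.finrank ℚ K * 2) = 2 := by
  have hn : Module.finrank ℚ K * 2 ≠ 0 := by
    have : 0 < Module.finrank ℚ K := Module.finrank_pos
    omega
  exact Real.rpow_inv_natCast_pow (by norm_num) hn

/-- `ζ_m`: the positive scalar `ρ ^ m` at every infinite place. -/
def zeta250n (m : ℤ) : G K :=
  cR250n (rho250n K ^ m) (zpow_ne_zero m (rho250n_pos K).ne')

theorem detN250n_mul_zeta (g : G K) (m : ℤ) :
    detN250n (g * zeta250n m) = detN250n g * (2 : ℝ) ^ m := by
  unfold zeta250n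
  rw [detN250n_mul_cR, abs_of_pos (zpow_pos (rho250n_pos K) m), ← pow_mul,
    ← zpow_natCast, ← zpow_mul, mul_comm m, zpow_mul, zpow_natCast, rho250n_pow]

theorem inv_zeta250n {φ : G K → ℂ}
    (hφ : ∀ (w : InfinitePlace K) (z : G K), IsArchPosScalar w z → ∀ g : G K, φ (g * z) = φ g)
    (m : ℤ) (g : G K) : φ (g * zeta250n m) = φ g :=
  inv_cR250n hφ _ (zpow_pos (rho250n_pos K) m) g

theorem exists_zpow_slab250n (t : ℝ) (ht : 0 < t) :
    ∃ m : ℤ, 1 ≤ t * (2 : ℝ) ^ m ∧ t * (2 : ℝ) ^ m < 2 := by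
  obtain ⟨k, hk1, hk2⟩ := exists_mem_Ico_zpow ht (one_lt_two (α := ℝ))
  have h2k : (0 : ℝ) < 2 ^ k := zpow_pos (by norm_num) k
  refine ⟨-k, ?_, ?_⟩
  · rw [zpow_neg, ← div_eq_mul_inv, le_div_iff₀ h2k, one_mul]
    exact hk1
  · rw [zpow_neg, ← div_eq_mul_inv, div_lt_iff₀ h2k, mul_comm, ← zpow_add_one₀ (by norm_num)]
    exact hk2

theorem countable_K250n (K : Type) [Field K] [NumberField K] : Countable K := by
  have e := (Module.finBasis ℚ K).equivFun
  exact e.injective.countable

theorem countable_GL250n (K : Type) [Field K] [NumberField K] : Countable (GL (Fin 2) K) := by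
  have := countable_K250n K
  have hinj : Function.Injective (fun g : GL (Fin 2) K => fun i j : Fin 2 =>
      (g : Matrix (Fin 2) (Fin 2) K) i j) := by
    intro g h hgh
    apply Units.ext
    ext i j
    exact congrFun (congrFun hgh i) j
  exact hinj.countable

/-! ## 4. The leaf -/

/-- A continuous bounded function which is left invariant under `GL₂(K)`, right invariant under
the positive scalars at every infinite place and not identically zero has nonzero norm on every
frame. -/
theorem innerD_ne_zero250n {μ : Measure (G K)} {F : Set (G K)} (hF : T5.IsFrame μ F)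
    {φ : G K → ℂ} (hcont : Continuous φ) (hbdd : ∃ C : ℝ, ∀ g : G K, ‖φ g‖ ≤ C)
    (hleft : ∀ (γ : GL (Fin 2) K) (g : G K), φ (T5.ratG γ * g) = φ g)
    (hscal : ∀ (w : InfinitePlace K) (z : G K), IsArchPosScalar w z →
      ∀ g : G K, φ (g * z) = φ g)
    (hne : ∃ g : G K, φ g ≠ 0) : T5.innerD μ F φ φ ≠ 0 := by
  intro h0
  have : BorelSpace (G K) := ⟨rfl⟩
  have := hF.haar
  obtain ⟨C, hC⟩ := hbdd
  obtain ⟨g₀, hg₀⟩ := hne
  have hcont2 : Continuous (fun g => φ g * (starRingEnd ℂ) (φ g)) :=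
    hcont.mul (Complex.continuous_conj.comp hcont)
  have hint : IntegrableOn (fun g => φ g * (starRingEnd ℂ) (φ g)) F μ := by
    refine Measure.integrableOn_of_bounded (M := C * C) hF.finite.ne
      hcont2.aestronglyMeasurable (Filter.Eventually.of_forall fun g => ?_)
    rw [norm_mul, RCLike.norm_conj]
    exact mul_le_mul (hC g) (hC g) (norm_nonneg _) ((norm_nonneg _).trans (hC g))
  have hreal : ∀ g, φ g * (starRingEnd ℂ) (φ g) = ((Complex.normSq (φ g) : ℝ) : ℂ) :=
    fun g => Complex.mul_conj (φ g)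
  have hintR : IntegrableOn (fun g => Complex.normSq (φ g)) F μ := by
    have := hint.re
    refine this.congr (Filter.Eventually.of_forall fun g => ?_)
    show (φ g * (starRingEnd ℂ) (φ g)).re = Complex.normSq (φ g)
    rw [hreal, Complex.ofReal_re]
  have h0R : ∫ g in F, Complex.normSq (φ g) ∂μ = 0 := by
    have h1 : T5.innerD μ F φ φ = ((∫ g in F, Complex.normSq (φ g) ∂μ : ℝ) : ℂ) := by
      unfold T5.innerD
      simp only [hreal]
      exact integral_ofReal
    rw [h1] at h0
    exact_mod_cast h0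
  have hae : (fun g => Complex.normSq (φ g)) =ᵐ[μ.restrict F] 0 :=
    (setIntegral_eq_zero_iff_of_nonneg_ae
      (Filter.Eventually.of_forall fun g => Complex.normSq_nonneg _) hintR).1 h0R
  have hVopen : IsOpen {g : G K | φ g ≠ 0} := isOpen_ne_fun hcont continuous_const
  have hVD : μ ({g : G K | φ g ≠ 0} ∩ F) = 0 := by
    have h2 : μ.restrict F {g : G K | φ g ≠ 0} = 0 := by
      have h3 : ∀ᵐ g ∂(μ.restrict F), Complex.normSq (φ g) = 0 := hae
      rw [ae_iff] at h3
      have h4 : {g : G K | φ g ≠ 0} = {g : G K | ¬ Complex.normSq (φ g) = 0} := by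
        ext g
        show φ g ≠ 0 ↔ ¬ Complex.normSq (φ g) = 0
        rw [Complex.normSq_eq_zero]
      rw [h4]
      exact h3
    rwa [Measure.restrict_apply hVopen.measurableSet] at h2
  have hmeasA : MeasurableSet ({g : G K | φ g ≠ 0} ∩ F) := hVopen.measurableSet.inter hF.meas
  have hcnt : Countable (GL (Fin 2) K × ℤ) := by
    have := countable_GL250n K
    infer_instance
  have hsub : {g : G K | φ g ≠ 0} ⊆
      ⋃ p : GL (Fin 2) K × ℤ, (fun g : G K => g * zeta250n p.2) ⁻¹'
        ((fun g : G K => T5.ratG p.1 * g) ⁻¹' ({g : G K | φ g ≠ 0} ∩ F)) := by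
    intro g hg
    obtain ⟨m, hm1, hm2⟩ := exists_zpow_slab250n (detN250n g) (detN250n_pos g)
    have hslab : g * zeta250n m ∈ T5.slab K := by
      rw [mem_slab_iff250n, detN250n_mul_zeta]
      exact ⟨hm1, hm2⟩
    obtain ⟨γ, hγ, -⟩ := hF.strict _ hslab
    refine Set.mem_iUnion.2 ⟨(γ, m), ?_, hγ⟩
    show φ (T5.ratG γ * (g * zeta250n m)) ≠ 0
    rw [hleft, inv_zeta250n hscal]
    exact hg
  have hnull : μ {g : G K | φ g ≠ 0} = 0 := by
    refine measure_mono_null hsub (measure_iUnion_null fun p => ?_)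
    rw [hF.right_inv (zeta250n p.2) _ (measurable_const_mul (T5.ratG p.1) hmeasA),
      measure_preimage_mul]
    exact hVD
  exact (hVopen.measure_pos μ ⟨g₀, hg₀⟩).ne' hnull

/-- **T7.14.5 NORM-POS.** -/
theorem normPosC250 (K : Type) [Field K] [NumberField K] : Rigid.NormPosC K :=
  fun _ _ _ hF _ _ _ hφ hne =>
    innerD_ne_zero250n hF hφ.cont hφ.bdd hφ.left_inv hφ.arch_scalar hne

/-- Type check against the frozen Prop. -/
example (K : Type) [Field K] [NumberField K] : Fermat.Agent.LT.T7.Rigid.NormPosC K :=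
  normPosC250 K

end Fermat.Agent.LT.T7.H250

end
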