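import Mathlib
import Fermat.Agent.LT.T7.H671.LimSpec
import Fermat.Agent.LT.T7.H671.ConeOrbit
import Fermat.Agent.LT.T7.H849.CountBd

/-!
# Row LT, tower T7, node T7.14, leaf T7.14.3g `H671.ClassDecC` (registry row 1958; helper250)

OFF-MAIN.  Typed against byte-identical copies of `LT/T7/H671/LimSpec.lean` (helper671,
sha256 `4ba8fdf5…`), `LT/T7/H671/{ConeOrbit bcfc7ac8, ConeCount 1a3c77af, AdelicPair daa04071,
CountSpec 4766156d}.lean`, `LT/T7/H849/CountBd.lean` (helper849, `404f435d…`: finiteness of the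
points of bounded height) and their closure (`RigidAut e1add0c1`, `T5/Spec f2d97e70`, `T1/Spec
e8ae48d6`, A0).

    classDecC_of250 : ContentC K → UnitsC K → ScaleC K → T1.AdNormC K → TotCplx K → ClassDecC K
    classDecC_of_T1Out250 : ContentC K → UnitsC K → ScaleC K → T1.T1Out K → TotCplx K → ClassDecC K

(conclusion VERBATIM).  `TotCplx K` is used ONLY through `H849.cntSet_finite849` (finiteness of
`cntB671`; without finiteness the statement is about junk values of `ncard`); the consumer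
`CountLimC K` provides it.

## Proof

For `x ∈ ℙ¹(K)` choose (`ContentC`, the class representatives, the cone) `i = ι x` and
`l = lam x ∈ Kˣ` with `l · x.rep` primitive for `g · c_i` and `(l x.rep g)_∞` in the cone.
`Φ (x, ζ) = ζ · (lam x · x.rep · g c_{ι x})_∞` (`ζ` a root of unity) maps
`cntB671 𝔪 B g × torsion K` to the union of the sets `primSet671 𝔪 (B ‖c_i‖) (g c_i)`:

* it lands in `primSet` of `ι x` (`phi_mem250c`: the gauge of a primitive row is
  `rowNorm · ‖c_i‖`, `ScaleC`; units preserve the gauge, primitivity and the congruence);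
* it is injective (`phi_inj250c`: `ξ ↦ (ξ h)_∞` is injective);
* every point of `primSet` of `i` is a value at some `x` with `ι x = i` (`phi_surj250c`:
  uniqueness of the class and of the primitive representative up to units, `UnitsC`; a unit which
  keeps a point of the cone in the cone is a root of unity).

Counting (`sum_ncard_fibres250c`, no number fields) gives the formula.
-/

set_option autoImplicit false
set_option linter.unusedSectionVars false

open AutomorphicForm IsDedekindDomain NumberField Filter Topology MeasureTheory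
open NumberField.mixedEmbedding NumberField.InfinitePlace

noncomputable section

namespace Fermat.Agent.LT.T7.H250

open Fermat.Agent.LT.H556 Fermat.Agent.LT.H556.A0 Fermat.Agent.LT.T7 Fermat.Agent.LT.T7.Rigid
open Fermat.Agent.LT.T7.H671

variable {K : Type} [Field K] [NumberField K]

/-! ## 1. Components of rows -/

theorem adl_snd_mul250c (a b : Adl K) (v : HeightOneSpectrum (𝓞 K)) :
    (a * b).2 v = a.2 v * b.2 v := rfl

theorem adl_snd_add250c (a b : Adl K) (v : HeightOneSpectrum (𝓞 K)) :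
    (a + b).2 v = a.2 v + b.2 v := rfl

theorem algebraMap_snd250c (x : K) (v : HeightOneSpectrum (𝓞 K)) :
    (algebraMap K (Adl K) x).2 v = algebraMap K (v.adicCompletion K) x := rfl

theorem finIdl_fst250c (a : (FiniteAdeleRing (𝓞 K) K)ˣ) :
    ((finIdl671 a : (Adl K)ˣ) : Adl K).1 = 1 := rfl

theorem finIdl_snd250c (a : (FiniteAdeleRing (𝓞 K) K)ˣ) :
    ((finIdl671 a : (Adl K)ˣ) : Adl K).2 = (a : FiniteAdeleRing (𝓞 K) K) := rfl

/-- The row of `g · a` for a finite scalar idele `a`. -/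
theorem rowOf_mul_scF250c (ξ : Fin 2 → K) (g : G K) (a : (FiniteAdeleRing (𝓞 K) K)ˣ)
    (j : Fin 2) :
    rowOf ξ (g * scF671 a) j = rowOf ξ g j * ((finIdl671 a : (Adl K)ˣ) : Adl K) := by
  have h : ∀ i : Fin 2, ((g * scF671 a : G K) : Matrix (Fin 2) (Fin 2) (Adl K)) i j
      = (g : Matrix (Fin 2) (Fin 2) (Adl K)) i j * ((finIdl671 a : (Adl K)ˣ) : Adl K) := by
    intro i
    rw [Units.val_mul, Matrix.mul_apply, Fin.sum_univ_two]
    fin_cases j <;> simp [scF671, dgF671]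
  unfold rowOf
  rw [h 0, h 1]
  ring

theorem rowOf_mul_scF_fst250c (ξ : Fin 2 → K) (g : G K) (a : (FiniteAdeleRing (𝓞 K) K)ˣ)
    (j : Fin 2) : (rowOf ξ (g * scF671 a) j).1 = (rowOf ξ g j).1 := by
  rw [rowOf_mul_scF250c, adl_fst_mul671, finIdl_fst250c, mul_one]

theorem rowOf_mul_scF_snd250c (ξ : Fin 2 → K) (g : G K) (a : (FiniteAdeleRing (𝓞 K) K)ˣ)
    (j : Fin 2) (v : HeightOneSpectrum (𝓞 K)) :
    (rowOf ξ (g * scF671 a) j).2 v = (rowOf ξ g j).2 v * (a : FiniteAdeleRing (𝓞 K) K) v := by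
  rw [rowOf_mul_scF250c, adl_snd_mul250c, finIdl_snd250c]

theorem pairOf_mul_scF250c (ξ : Fin 2 → K) (g : G K) (a : (FiniteAdeleRing (𝓞 K) K)ˣ) :
    pairOf671 (rowOf ξ (g * scF671 a)) = pairOf671 (rowOf ξ g) := by
  unfold pairOf671 infMixed671
  rw [rowOf_mul_scF_fst250c, rowOf_mul_scF_fst250c]

theorem rowOf_smul_snd250c (l : K) (ξ : Fin 2 → K) (g : G K) (j : Fin 2)
    (v : HeightOneSpectrum (𝓞 K)) :
    (rowOf (l • ξ) g j).2 v = algebraMap K (v.adicCompletion K) l * (rowOf ξ g j).2 v := by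
  rw [rowOf_smul671, adl_snd_mul250c, algebraMap_snd250c]

theorem pairOf_smul250c (l : K) (ξ : Fin 2 → K) (g : G K) :
    pairOf671 (rowOf (l • ξ) g)
      = (mixedEmbedding K l * (pairOf671 (rowOf ξ g)).1,
          mixedEmbedding K l * (pairOf671 (rowOf ξ g)).2) := by
  unfold pairOf671
  rw [rowOf_smul671, infMixed671_mul, infMixed671_mul, infMixed671_algebraMap]

theorem pairOf_unit_smul250c (u : (𝓞 K)ˣ) (ξ : Fin 2 → K) (g : G K) :
    pairOf671 (rowOf (((u : 𝓞 K) : K) • ξ) g) = unitPair671 u (pairOf671 (rowOf ξ g)) := by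
  rw [pairOf_smul250c, unitPair671_eq_mul]

/-! ## 2. Rows of nonzero vectors do not vanish at any infinite place -/

theorem rowOf_mul_inv250c (ξ : Fin 2 → K) (g : G K) (k : Fin 2) :
    rowOf ξ g 0 * ((g⁻¹ : G K) : Matrix (Fin 2) (Fin 2) (Adl K)) 0 k
      + rowOf ξ g 1 * ((g⁻¹ : G K) : Matrix (Fin 2) (Fin 2) (Adl K)) 1 k
      = algebraMap K (Adl K) (ξ k) := by
  have e0 : (g : Matrix (Fin 2) (Fin 2) (Adl K))
      * ((g⁻¹ : G K) : Matrix (Fin 2) (Fin 2) (Adl K)) = 1 := by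
    rw [← Units.val_mul, mul_inv_cancel]
    rfl
  have h : ∀ i : Fin 2,
      (g : Matrix (Fin 2) (Fin 2) (Adl K)) i 0
          * ((g⁻¹ : G K) : Matrix (Fin 2) (Fin 2) (Adl K)) 0 k
        + (g : Matrix (Fin 2) (Fin 2) (Adl K)) i 1
          * ((g⁻¹ : G K) : Matrix (Fin 2) (Fin 2) (Adl K)) 1 k
        = (1 : Matrix (Fin 2) (Fin 2) (Adl K)) i k := by
    intro i
    rw [← e0, Matrix.mul_apply, Fin.sum_univ_two]
  have key : rowOf ξ g 0 * ((g⁻¹ : G K) : Matrix (Fin 2) (Fin 2) (Adl K)) 0 k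
      + rowOf ξ g 1 * ((g⁻¹ : G K) : Matrix (Fin 2) (Fin 2) (Adl K)) 1 k
      = algebraMap K (Adl K) (ξ 0) * (1 : Matrix (Fin 2) (Fin 2) (Adl K)) 0 k
        + algebraMap K (Adl K) (ξ 1) * (1 : Matrix (Fin 2) (Fin 2) (Adl K)) 1 k := by
    rw [← h 0, ← h 1]
    unfold rowOf
    ring
  rw [key]
  have hall : ∀ k' : Fin 2,
      algebraMap K (Adl K) (ξ 0) * (1 : Matrix (Fin 2) (Fin 2) (Adl K)) 0 k'
        + algebraMap K (Adl K) (ξ 1) * (1 : Matrix (Fin 2) (Fin 2) (Adl K)) 1 k'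
        = algebraMap K (Adl K) (ξ k') := by
    rw [Fin.forall_fin_two]
    constructor <;> simp
  exact hall k

theorem adl_fst_apply_mul250c (a b : Adl K) (w : InfinitePlace K) :
    (a * b).1 w = a.1 w * b.1 w := rfl

theorem adl_fst_apply_add250c (a b : Adl K) (w : InfinitePlace K) :
    (a + b).1 w = a.1 w + b.1 w := rfl

/-- The norm at `w` of the image of `x ∈ K` in the adeles. -/
theorem norm_algebraMap_fst250c (x : K) (w : InfinitePlace K) :
    ‖(algebraMap K (Adl K) x).1 w‖ = w x := by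
  rw [← normAtPlace_infMixed671, infMixed671_algebraMap, normAtPlace_apply]

/-- A row of a nonzero vector does not vanish at any infinite place. -/
theorem row_ne_zero_at250c {ξ : Fin 2 → K} (hξ : ξ ≠ 0) (g : G K) (w : InfinitePlace K) :
    (rowOf ξ g 0).1 w ≠ 0 ∨ (rowOf ξ g 1).1 w ≠ 0 := by
  by_contra hcon
  push Not at hcon
  apply hξ
  funext k
  have h := congrArg (fun a : Adl K => ‖a.1 w‖) (rowOf_mul_inv250c ξ g k)
  simp only [adl_fst_apply_add250c, adl_fst_apply_mul250c, hcon.1, hcon.2, zero_mul, add_zero,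
    norm_zero] at h
  rw [norm_algebraMap_fst250c] at h
  by_contra hk
  exact (w.pos_iff.mpr hk).ne' h.symm

theorem pairGauge_pos250c {ξ : Fin 2 → K} (hξ : ξ ≠ 0) (g : G K) :
    0 < pairGauge671 (pairOf671 (rowOf ξ g)) := by
  rw [pairGauge671_pairOf]
  refine Finset.prod_pos fun w _ => Real.rpow_pos_of_pos ?_ _
  rcases row_ne_zero_at250c hξ g w with h | h
  · have := norm_pos_iff.2 h
    positivity
  · have := norm_pos_iff.2 h
    positivity

theorem pairGauge_zero250c : pairGauge671 (0 : Pair671 K) = 0 := by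
  have h := pairGauge671_smul (0 : ℝ) (0 : Pair671 K)
  rw [zero_smul, abs_zero, zero_pow (Module.finrank_pos).ne', zero_mul] at h
  exact h

/-- `ξ ↦ (ξ g)_∞` is injective. -/
theorem pairOf_rowOf_injective250c (g : G K) {ξ ξ' : Fin 2 → K}
    (h : pairOf671 (rowOf ξ g) = pairOf671 (rowOf ξ' g)) : ξ = ξ' := by
  by_contra hne
  have hη : ξ - ξ' ≠ 0 := sub_ne_zero.mpr hne
  have h1 := pairGauge_pos250c hη g
  have h2 : pairOf671 (rowOf (ξ - ξ') g) = 0 := by
    rw [sub_eq_add_neg, rowOf_add671, rowOf_neg671, pairOf671_add, pairOf671_neg, h,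
      add_neg_cancel]
  rw [h2, pairGauge_zero250c] at h1
  exact lt_irrefl _ h1

theorem ne_zero_of_mem_cone250c {ξ : Fin 2 → K} {g : G K}
    (h : pairOf671 (rowOf ξ g) ∈ pairCone671 K) : ξ ≠ 0 := by
  intro h0
  have h1 := pairGauge671_ne_zero_of_mem_cone h
  rw [h0, rowOf_zero671, pairOf671_zero] at h1
  exact h1 pairGauge_zero250c

/-! ## 3. Local heights at the finite places -/

/-- The local height `max(|r₀|_v, |r₁|_v)`. -/
def locH250c (r : Fin 2 → Adl K) (v : HeightOneSpectrum (𝓞 K)) : ℝ :=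
  max ‖(r 0).2 v‖ ‖(r 1).2 v‖

theorem isPrimRow_iff250c (r : Fin 2 → Adl K) : IsPrimRow671 r ↔ ∀ v, locH250c r v = 1 :=
  Iff.rfl

theorem finNorm_eq250c (r : Fin 2 → Adl K) : finNorm671 r = ∏ᶠ v, locH250c r v := rfl

theorem locH_nonneg250c (r : Fin 2 → Adl K) (v : HeightOneSpectrum (𝓞 K)) :
    0 ≤ locH250c r v := le_max_of_le_left (norm_nonneg _)

/-- The local height of the row of `l ξ` for `g · a`. -/
theorem locH_smul_scF250c (l : K) (ξ : Fin 2 → K) (g : G K)
    (a : (FiniteAdeleRing (𝓞 K) K)ˣ) (v : HeightOneSpectrum (𝓞 K)) :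
    locH250c (rowOf (l • ξ) (g * scF671 a)) v
      = ‖algebraMap K (v.adicCompletion K) l‖ * locH250c (rowOf ξ g) v
        * ‖(a : FiniteAdeleRing (𝓞 K) K) v‖ := by
  have e1 : ∀ j : Fin 2, ‖(rowOf (l • ξ) (g * scF671 a) j).2 v‖
      = ‖algebraMap K (v.adicCompletion K) l‖
        * (‖(rowOf ξ g j).2 v‖ * ‖(a : FiniteAdeleRing (𝓞 K) K) v‖) := by
    intro j
    rw [rowOf_smul_snd250c, rowOf_mul_scF_snd250c, norm_mul, norm_mul]
  unfold locH250c
  rw [e1 0, e1 1, ← mul_max_of_nonneg _ _ (norm_nonneg _),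
    ← max_mul_of_nonneg _ _ (norm_nonneg _), mul_assoc]

theorem locH_scF250c (ξ : Fin 2 → K) (g : G K)
    (a : (FiniteAdeleRing (𝓞 K) K)ˣ) (v : HeightOneSpectrum (𝓞 K)) :
    locH250c (rowOf ξ (g * scF671 a)) v
      = locH250c (rowOf ξ g) v * ‖(a : FiniteAdeleRing (𝓞 K) K) v‖ := by
  have h := locH_smul_scF250c (1 : K) ξ g a v
  rw [one_smul, map_one, norm_one, one_mul] at h
  exact h

theorem locH_smul250c (l : K) (ξ : Fin 2 → K) (g : G K) (v : HeightOneSpectrum (𝓞 K)) :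
    locH250c (rowOf (l • ξ) g) v
      = ‖algebraMap K (v.adicCompletion K) l‖ * locH250c (rowOf ξ g) v := by
  unfold locH250c
  rw [rowOf_smul_snd250c, rowOf_smul_snd250c, norm_mul, norm_mul,
    mul_max_of_nonneg _ _ (norm_nonneg _)]

/-- The components of a finite idele are nonzero. -/
theorem finIdele_apply_ne_zero250c (a : (FiniteAdeleRing (𝓞 K) K)ˣ)
    (v : HeightOneSpectrum (𝓞 K)) : (a : FiniteAdeleRing (𝓞 K) K) v ≠ 0 := by
  intro h
  have e : ((a : FiniteAdeleRing (𝓞 K) K) * ((a⁻¹ : (FiniteAdeleRing (𝓞 K) K)ˣ) :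
      FiniteAdeleRing (𝓞 K) K)) v = 1 := by
    rw [Units.mul_inv]
    rfl
  have e' : ((a : FiniteAdeleRing (𝓞 K) K) * ((a⁻¹ : (FiniteAdeleRing (𝓞 K) K)ˣ) :
      FiniteAdeleRing (𝓞 K) K)) v
      = (a : FiniteAdeleRing (𝓞 K) K) v
        * ((a⁻¹ : (FiniteAdeleRing (𝓞 K) K)ˣ) : FiniteAdeleRing (𝓞 K) K) v := rfl
  rw [e', h, zero_mul] at e
  exact zero_ne_one e

theorem norm_finIdele_pos250c (a : (FiniteAdeleRing (𝓞 K) K)ˣ)
    (v : HeightOneSpectrum (𝓞 K)) : 0 < ‖(a : FiniteAdeleRing (𝓞 K) K) v‖ :=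
  norm_pos_iff.2 (finIdele_apply_ne_zero250c a v)

theorem norm_finIdele_inv250c (a : (FiniteAdeleRing (𝓞 K) K)ˣ)
    (v : HeightOneSpectrum (𝓞 K)) :
    ‖((a⁻¹ : (FiniteAdeleRing (𝓞 K) K)ˣ) : FiniteAdeleRing (𝓞 K) K) v‖
      = ‖(a : FiniteAdeleRing (𝓞 K) K) v‖⁻¹ := by
  have e : ((a⁻¹ : (FiniteAdeleRing (𝓞 K) K)ˣ) : FiniteAdeleRing (𝓞 K) K) v
      * (a : FiniteAdeleRing (𝓞 K) K) v = 1 := by
    have e1 : (((a⁻¹ : (FiniteAdeleRing (𝓞 K) K)ˣ) : FiniteAdeleRing (𝓞 K) K)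
        * (a : FiniteAdeleRing (𝓞 K) K)) v = 1 := by
      rw [Units.inv_mul]
      rfl
    exact e1
  have h := congrArg norm e
  rw [norm_mul, norm_one] at h
  exact eq_inv_of_mul_eq_one_left h

theorem finprod_pos250c {ι : Type*} (f : ι → ℝ) (hf : ∀ i, 0 < f i) : 0 < ∏ᶠ i, f i := by
  by_cases hfin : (Function.mulSupport f).Finite
  · rw [finprod_eq_prod f hfin]
    exact Finset.prod_pos fun i _ => hf i
  · rw [finprod_of_infinite_mulSupport hfin]
    exact one_pos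

theorem finNormI_pos250c (a : (FiniteAdeleRing (𝓞 K) K)ˣ) : 0 < finNormI671 a :=
  finprod_pos250c _ fun v => norm_finIdele_pos250c a v

/-- The finite norm of a row which is primitive after the twist by `a`. -/
theorem finNorm_of_prim250c {ξ : Fin 2 → K} {g : G K} {a : (FiniteAdeleRing (𝓞 K) K)ˣ}
    (h : IsPrimRow671 (rowOf ξ (g * scF671 a))) :
    finNorm671 (rowOf ξ g) = (finNormI671 a)⁻¹ := by
  have h1 : ∀ v, locH250c (rowOf ξ g) v = ‖(a : FiniteAdeleRing (𝓞 K) K) v‖⁻¹ := by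
    intro v
    have h2 := h v
    change locH250c (rowOf ξ (g * scF671 a)) v = 1 at h2
    rw [locH_scF250c] at h2
    exact eq_inv_of_mul_eq_one_left h2
  rw [finNorm_eq250c]
  simp only [h1]
  unfold finNormI671
  exact finprod_inv_distrib _

/-- The norm of a unit of `𝓞 K` at a finite place is `1`. -/
theorem norm_unit_fin250c (u : (𝓞 K)ˣ) (v : HeightOneSpectrum (𝓞 K)) :
    ‖algebraMap K (v.adicCompletion K) (((u : 𝓞 K) : K))‖ = 1 := by
  have h1 : ∀ x : 𝓞 K, ‖algebraMap K (v.adicCompletion K) ((x : K))‖ ≤ 1 := by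
    intro x
    rw [Fermat.Agent.LT.T7.H849.norm_le_one_iff849]
    exact v.coe_mem_adicCompletionIntegers (K := K) x
  have h2 := h1 (u : 𝓞 K)
  have h3 := h1 ((u⁻¹ : (𝓞 K)ˣ) : 𝓞 K)
  have h4 : algebraMap K (v.adicCompletion K) (((u : 𝓞 K) : K))
      * algebraMap K (v.adicCompletion K) ((((u⁻¹ : (𝓞 K)ˣ) : 𝓞 K) : K)) = 1 := by
    rw [← map_mul, ← map_mul, Units.mul_inv, map_one, map_one]
  have h5 := congrArg norm h4
  rw [norm_mul, norm_one] at h5
  have hpos : 0 ≤ ‖algebraMap K (v.adicCompletion K) (((u : 𝓞 K) : K))‖ := norm_nonneg _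
  have hpos' : 0 ≤ ‖algebraMap K (v.adicCompletion K) ((((u⁻¹ : (𝓞 K)ˣ) : 𝓞 K) : K))‖ :=
    norm_nonneg _
  nlinarith

/-! ## 4. The congruence clause is invariant under scaling -/

theorem cong_of_scale250c {𝔪 : Ideal (𝓞 K)} {r r' : Fin 2 → Adl K}
    (s : ∀ v : HeightOneSpectrum (𝓞 K), v.adicCompletion K)
    (hr : ∀ (j : Fin 2) (v : HeightOneSpectrum (𝓞 K)), (r' j).2 v = s v * (r j).2 v)
    (h : Cong671 𝔪 r) : Cong671 𝔪 r' := by
  intro v hv
  obtain ⟨t, ht, e⟩ := h v hv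
  refine ⟨t, ht, ?_⟩
  rw [hr 0 v, hr 1 v, e]
  ring

theorem cong_of_scale_inv250c {𝔪 : Ideal (𝓞 K)} {r r' : Fin 2 → Adl K}
    (s : ∀ v : HeightOneSpectrum (𝓞 K), v.adicCompletion K) (hs : ∀ v, s v ≠ 0)
    (hr : ∀ (j : Fin 2) (v : HeightOneSpectrum (𝓞 K)), (r' j).2 v = s v * (r j).2 v)
    (h : Cong671 𝔪 r') : Cong671 𝔪 r := by
  intro v hv
  obtain ⟨t, ht, e⟩ := h v hv
  refine ⟨t, ht, ?_⟩
  rw [hr 0 v, hr 1 v] at e
  apply mul_left_cancel₀ (hs v)
  rw [e]
  ring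

theorem cong_iff_scale250c {𝔪 : Ideal (𝓞 K)} {r r' : Fin 2 → Adl K}
    (s : ∀ v : HeightOneSpectrum (𝓞 K), v.adicCompletion K) (hs : ∀ v, s v ≠ 0)
    (hr : ∀ (j : Fin 2) (v : HeightOneSpectrum (𝓞 K)), (r' j).2 v = s v * (r j).2 v) :
    Cong671 𝔪 r' ↔ Cong671 𝔪 r :=
  ⟨cong_of_scale_inv250c s hs hr, cong_of_scale250c s hr⟩

/-- The congruence clause for `l ξ`, `g · a` and for `ξ`, `g` (`l ≠ 0`). -/
theorem cong_smul_scF_iff250c (𝔪 : Ideal (𝓞 K)) {l : K} (hl : l ≠ 0) (ξ : Fin 2 → K) (g : G K)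
    (a : (FiniteAdeleRing (𝓞 K) K)ˣ) :
    Cong671 𝔪 (rowOf (l • ξ) (g * scF671 a)) ↔ Cong671 𝔪 (rowOf ξ g) := by
  refine cong_iff_scale250c
    (fun v => algebraMap K (v.adicCompletion K) l * (a : FiniteAdeleRing (𝓞 K) K) v)
    (fun v => mul_ne_zero ?_ (finIdele_apply_ne_zero250c a v)) ?_
  · exact (map_ne_zero _).mpr hl
  · intro j v
    rw [rowOf_smul_snd250c, rowOf_mul_scF_snd250c]
    ring

/-! ## 5. Primitive representatives -/

theorem smul_ne_zero250c {l : K} (hl : l ≠ 0) {ξ : Fin 2 → K} (hξ : ξ ≠ 0) : l • ξ ≠ 0 :=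
  smul_ne_zero hl hξ

/-- The gauge of a primitive row. -/
theorem gauge_of_prim250c (hS : ScaleC K) {ξ : Fin 2 → K} {g : G K}
    {a : (FiniteAdeleRing (𝓞 K) K)ˣ} (l : Kˣ)
    (h : IsPrimRow671 (rowOf ((l : K) • ξ) (g * scF671 a))) :
    pairGauge671 (pairOf671 (rowOf ((l : K) • ξ) (g * scF671 a)))
      = rowNorm (rowOf ξ g) * finNormI671 a := by
  have h1 := rowNorm_eq671 (rowOf ((l : K) • ξ) g)
  rw [hS g ξ l, finNorm_of_prim250c h, ← pairOf_mul_scF250c _ g a] at h1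
  rw [h1, mul_assoc, inv_mul_cancel₀ (finNormI_pos250c a).ne', mul_one]

section ClassRep

variable {n : ℕ} {c : Fin n → (FiniteAdeleRing (𝓞 K) K)ˣ}

/-- Existence of a primitive representative in the cone. -/
theorem exists_prim250c (hC : ContentC K) (hc : IsClassRep671 c) (g : G K) {ξ : Fin 2 → K}
    (hξ : ξ ≠ 0) :
    ∃ (i : Fin n) (l : Kˣ), IsPrimRow671 (rowOf ((l : K) • ξ) (g * scF671 (c i))) ∧
      pairOf671 (rowOf ((l : K) • ξ) (g * scF671 (c i))) ∈ pairCone671 K := by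
  obtain ⟨a, ha⟩ := hC g ξ hξ
  obtain ⟨i, l, hl⟩ := hc.1 a⁻¹
  have hprim : IsPrimRow671 (rowOf ((l : K) • ξ) (g * scF671 (c i))) := by
    intro v
    change locH250c (rowOf ((l : K) • ξ) (g * scF671 (c i))) v = 1
    have e1 : locH250c (rowOf ξ g) v = ‖(a : FiniteAdeleRing (𝓞 K) K) v‖ := (ha v).symm
    have e2 := hl v
    rw [norm_finIdele_inv250c] at e2
    rw [locH_smul_scF250c, e1, mul_right_comm, ← e2,
      inv_mul_cancel₀ (norm_finIdele_pos250c a v).ne']
  have hlξ : (l : K) • ξ ≠ 0 := smul_ne_zero (Units.ne_zero l) hξ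
  obtain ⟨u, hu⟩ := exists_unit_smul_mem_pairCone671
    (pairGauge_pos250c hlξ (g * scF671 (c i))).ne'
  have hu0 : ((u : 𝓞 K) : K) ≠ 0 := NumberField.Units.coe_ne_zero u
  refine ⟨i, Units.mk0 _ hu0 * l, ?_, ?_⟩
  · intro v
    change locH250c (rowOf (((Units.mk0 _ hu0 * l : Kˣ) : K) • ξ) (g * scF671 (c i))) v = 1
    have e : ((Units.mk0 _ hu0 * l : Kˣ) : K) • ξ = ((u : 𝓞 K) : K) • ((l : K) • ξ) := by
      rw [Units.val_mul, Units.val_mk0, mul_smul]
    rw [e, locH_smul250c, norm_unit_fin250c, one_mul]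
    exact hprim v
  · have e : ((Units.mk0 _ hu0 * l : Kˣ) : K) • ξ = ((u : 𝓞 K) : K) • ((l : K) • ξ) := by
      rw [Units.val_mul, Units.val_mk0, mul_smul]
    rw [e, pairOf_unit_smul250c]
    exact hu

/-- Uniqueness of the class and of the primitive representative up to units. -/
theorem prim_unique250c (hU : UnitsC K) (hc : IsClassRep671 c) (g : G K) {ξ : Fin 2 → K}
    {i i' : Fin n} {l l' : Kˣ}
    (h : IsPrimRow671 (rowOf ((l : K) • ξ) (g * scF671 (c i))))
    (h' : IsPrimRow671 (rowOf ((l' : K) • ξ) (g * scF671 (c i')))) :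
    i = i' ∧ ∃ u : (𝓞 K)ˣ, (l' : K) = ((u : 𝓞 K) : K) * (l : K) := by
  have e : ∀ v : HeightOneSpectrum (𝓞 K),
      ‖algebraMap K (v.adicCompletion K) (l : K)‖ * ‖(c i : FiniteAdeleRing (𝓞 K) K) v‖
        = ‖algebraMap K (v.adicCompletion K) (l' : K)‖
          * ‖(c i' : FiniteAdeleRing (𝓞 K) K) v‖ := by
    intro v
    have h1 := h v
    have h2 := h' v
    change locH250c (rowOf ((l : K) • ξ) (g * scF671 (c i))) v = 1 at h1
    change locH250c (rowOf ((l' : K) • ξ) (g * scF671 (c i'))) v = 1 at h2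
    rw [locH_smul_scF250c] at h1 h2
    have hm : locH250c (rowOf ξ g) v ≠ 0 := by
      intro h0
      rw [h0, mul_zero, zero_mul] at h1
      exact zero_ne_one h1
    apply mul_right_cancel₀ hm
    calc ‖algebraMap K (v.adicCompletion K) (l : K)‖ * ‖(c i : FiniteAdeleRing (𝓞 K) K) v‖
          * locH250c (rowOf ξ g) v = 1 := by rw [mul_right_comm]; exact h1
      _ = ‖algebraMap K (v.adicCompletion K) (l' : K)‖
          * ‖(c i' : FiniteAdeleRing (𝓞 K) K) v‖ * locH250c (rowOf ξ g) v := by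
          rw [mul_right_comm]; exact h2.symm
  have hlpos : ∀ v : HeightOneSpectrum (𝓞 K),
      0 < ‖algebraMap K (v.adicCompletion K) (l : K)‖ := fun v =>
    norm_pos_iff.2 ((map_ne_zero _).mpr (Units.ne_zero l))
  have hnorm : ∀ v : HeightOneSpectrum (𝓞 K),
      ‖algebraMap K (v.adicCompletion K) ((l' * l⁻¹ : Kˣ) : K)‖
        = ‖algebraMap K (v.adicCompletion K) (l' : K)‖
          / ‖algebraMap K (v.adicCompletion K) (l : K)‖ := by
    intro v
    rw [Units.val_mul, Units.val_inv_eq_inv_val, map_mul, map_inv₀, norm_mul, norm_inv,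
      div_eq_mul_inv]
  have hi : i = i' := by
    refine hc.2 i i' ⟨l' * l⁻¹, fun v => ?_⟩
    rw [hnorm v, div_mul_eq_mul_div, ← e v, mul_div_assoc, mul_comm,
      div_mul_cancel₀ _ (hlpos v).ne']
  refine ⟨hi, ?_⟩
  subst hi
  have hone : ∀ v : HeightOneSpectrum (𝓞 K),
      ‖algebraMap K (v.adicCompletion K) ((l' * l⁻¹ : Kˣ) : K)‖ = 1 := by
    intro v
    rw [hnorm v]
    have h3 := mul_right_cancel₀ (norm_finIdele_pos250c (c i) v).ne' (e v)
    rw [h3, div_self (by rw [← h3]; exact (hlpos v).ne')]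
  obtain ⟨u, hu⟩ := hU (l' * l⁻¹) hone
  refine ⟨u, ?_⟩
  rw [hu, Units.val_mul, Units.val_inv_eq_inv_val, mul_assoc,
    inv_mul_cancel₀ (Units.ne_zero l), mul_one]

end ClassRep

/-! ## 6. Points of the projective line -/

theorem proj_eq_of_smul250c {x x' : Projectivization K (Fin 2 → K)} {l l' : K} (hl : l ≠ 0)
    (hl' : l' ≠ 0) (h : l • x.rep = l' • x'.rep) : x = x' := by
  rw [← x.mk_rep, ← x'.mk_rep, Projectivization.mk_eq_mk_iff]
  refine ⟨Units.mk0 (l⁻¹ * l') (mul_ne_zero (inv_ne_zero hl) hl'), ?_⟩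
  rw [Units.smul_def, Units.val_mk0, mul_smul, ← h, smul_smul, inv_mul_cancel₀ hl, one_smul]

/-! ## 7. The leaf -/

/-- The points of bounded height are finite in number (helper849, `cntSet_finite849`). -/
theorem cntB_finite250c (hN : Fermat.Agent.LT.T1.AdNormC K) (hK : TotCplx K)
    (𝔪 : Ideal (𝓞 K)) (g : G K) {B : ℝ} (hB : 0 < B) : (cntB671 𝔪 B g).Finite := by
  have hD : 0 < Fermat.Agent.LT.T5.adNorm
      (Matrix.det (g : Matrix (Fin 2) (Fin 2) (Adl K))) := by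
    have h := hN.1 (Matrix.GeneralLinearGroup.det g)
    rw [Matrix.GeneralLinearGroup.val_det_apply] at h
    exact h
  have hY : 0 < Fermat.Agent.LT.T5.adNorm
      (Matrix.det (g : Matrix (Fin 2) (Fin 2) (Adl K))) / B ^ 2 := div_pos hD (pow_pos hB 2)
  refine (Fermat.Agent.LT.T7.H849.cntSet_finite849 hN hK 𝔪 g hY).subset ?_
  intro x hx
  refine ⟨?_, hx.2⟩
  have h0 : 0 ≤ rowNorm (rowOf x.rep g) := Fermat.Agent.LT.T7.H849.rowNorm_nonneg849 hK _
  have h1 : rowNorm (rowOf x.rep g) ^ 2 ≤ B ^ 2 := pow_le_pow_left₀ h0 hx.1 2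
  calc rowNorm (rowOf x.rep g) ^ 2
        * (Fermat.Agent.LT.T5.adNorm (Matrix.det (g : Matrix (Fin 2) (Fin 2) (Adl K))) / B ^ 2)
      ≤ B ^ 2
        * (Fermat.Agent.LT.T5.adNorm (Matrix.det (g : Matrix (Fin 2) (Fin 2) (Adl K))) / B ^ 2) :=
        mul_le_mul_of_nonneg_right h1 hY.le
    _ = Fermat.Agent.LT.T5.adNorm (Matrix.det (g : Matrix (Fin 2) (Fin 2) (Adl K))) := by
        field_simp

/-- Counting along a map with prescribed fibres (no number fields). -/
theorem sum_ncard_fibres250c {X T P : Type*} [Fintype T] {n : ℕ} (A : Finset X)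
    (ι : X → Fin n) (Φ : X × T → P) (Z : Fin n → Set P)
    (hmem : ∀ x ∈ A, ∀ t : T, Φ (x, t) ∈ Z (ι x))
    (hinj : ∀ q q' : X × T, ι q.1 = ι q'.1 → Φ q = Φ q' → q = q')
    (hsurj : ∀ i, ∀ p ∈ Z i, ∃ x ∈ A, ∃ t : T, ι x = i ∧ Φ (x, t) = p) :
    ∑ i : Fin n, (Z i).ncard = A.card * Fintype.card T := by
  classical
  have hncard : ∀ i, (Z i).ncard
      = ((A ×ˢ (Finset.univ : Finset T)).filter (fun q : X × T => ι q.1 = i)).card := by
    intro i
    have himg : Z i = Φ '' (↑((A ×ˢ (Finset.univ : Finset T)).filter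
        (fun q : X × T => ι q.1 = i)) : Set (X × T)) := by
      ext p
      constructor
      · intro hp
        obtain ⟨x, hx, t, hi, hp'⟩ := hsurj i p hp
        exact ⟨(x, t), Finset.mem_coe.2 (Finset.mem_filter.2
          ⟨Finset.mem_product.2 ⟨hx, Finset.mem_univ _⟩, hi⟩), hp'⟩
      · rintro ⟨⟨x, t⟩, hq, rfl⟩
        have hq' := Finset.mem_filter.1 (Finset.mem_coe.1 hq)
        have h1 := hmem x (Finset.mem_product.1 hq'.1).1 t
        have h2 : ι x = i := hq'.2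
        rw [h2] at h1
        exact h1
    have hinjOn : Set.InjOn Φ (↑((A ×ˢ (Finset.univ : Finset T)).filter
        (fun q : X × T => ι q.1 = i)) : Set (X × T)) := by
      intro q hq q' hq' hqq
      have h1 := Finset.mem_filter.1 (Finset.mem_coe.1 hq)
      have h2 := Finset.mem_filter.1 (Finset.mem_coe.1 hq')
      exact hinj q q' (h1.2.trans h2.2.symm) hqq
    rw [himg, hinjOn.ncard_image, Set.ncard_coe_finset]
  have hsum : ∑ i : Fin n,
      ((A ×ˢ (Finset.univ : Finset T)).filter (fun q : X × T => ι q.1 = i)).card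
      = (A ×ˢ (Finset.univ : Finset T)).card :=
    (Finset.card_eq_sum_card_fiberwise (f := fun q : X × T => ι q.1) (t := Finset.univ)
      (fun q _ => Finset.mem_univ _)).symm
  simp only [hncard]
  rw [hsum, Finset.card_product, Finset.card_univ]

section Phi

variable {n : ℕ} (c : Fin n → (FiniteAdeleRing (𝓞 K) K)ˣ) (g : G K)
  (ι : Projectivization K (Fin 2 → K) → Fin n) (lam : Projectivization K (Fin 2 → K) → Kˣ)

/-- The chosen primitive point of the cone over `x`, moved by the root of unity `ζ`. -/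
def phi250c (q : Projectivization K (Fin 2 → K) × NumberField.Units.torsion K) : Pair671 K :=
  unitPair671 (q.2 : (𝓞 K)ˣ)
    (pairOf671 (rowOf ((lam q.1 : K) • q.1.rep) (g * scF671 (c (ι q.1)))))

theorem phi_eq250c (x : Projectivization K (Fin 2 → K)) (ζ : NumberField.Units.torsion K) :
    phi250c c g ι lam (x, ζ)
      = pairOf671 (rowOf ((((ζ : (𝓞 K)ˣ) : 𝓞 K) : K) • ((lam x : K) • x.rep))
          (g * scF671 (c (ι x)))) :=
  (pairOf_unit_smul250c _ _ _).symm

variable {c g ι lam}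

theorem phi_mem250c (hS : ScaleC K)
    (hprim : ∀ x, IsPrimRow671 (rowOf ((lam x : K) • x.rep) (g * scF671 (c (ι x)))))
    (hcone : ∀ x, pairOf671 (rowOf ((lam x : K) • x.rep) (g * scF671 (c (ι x))))
      ∈ pairCone671 K)
    {𝔪 : Ideal (𝓞 K)} {B : ℝ} {x : Projectivization K (Fin 2 → K)} (hx : x ∈ cntB671 𝔪 B g)
    (ζ : NumberField.Units.torsion K) :
    phi250c c g ι lam (x, ζ)
      ∈ primSet671 𝔪 (B * finNormI671 (c (ι x))) (g * scF671 (c (ι x))) := by
  have hζ : (ζ : (𝓞 K)ˣ) ∈ NumberField.Units.torsion K := ζ.2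
  refine ⟨(unit_smul_mem_pairCone671_iff (hcone x) _).mpr hζ, ?_,
    (((ζ : (𝓞 K)ˣ) : 𝓞 K) : K) • ((lam x : K) • x.rep), (phi_eq250c c g ι lam x ζ).symm, ?_, ?_⟩
  · show pairGauge671 (unitPair671 _ _) ≤ _
    rw [pairGauge671_unit_smul, gauge_of_prim250c hS (lam x) (hprim x)]
    exact mul_le_mul_of_nonneg_right hx.1 (finNormI_pos250c _).le
  · intro v
    change locH250c _ v = 1
    rw [locH_smul250c, norm_unit_fin250c, one_mul]
    exact hprim x v
  · rw [smul_smul]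
    exact (cong_smul_scF_iff250c 𝔪
      (mul_ne_zero (NumberField.Units.coe_ne_zero _) (Units.ne_zero _)) x.rep g _).mpr hx.2

theorem phi_inj250c (q q' : Projectivization K (Fin 2 → K) × NumberField.Units.torsion K)
    (hι : ι q.1 = ι q'.1) (hΦ : phi250c c g ι lam q = phi250c c g ι lam q') : q = q' := by
  obtain ⟨x, ζ⟩ := q
  obtain ⟨x', ζ'⟩ := q'
  rw [phi_eq250c, phi_eq250c] at hΦ
  have hι' : ι x = ι x' := hι
  rw [hι'] at hΦ
  have h1 := pairOf_rowOf_injective250c _ hΦ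
  rw [smul_smul, smul_smul] at h1
  have hx : x = x' := proj_eq_of_smul250c
    (mul_ne_zero (NumberField.Units.coe_ne_zero _) (Units.ne_zero _))
    (mul_ne_zero (NumberField.Units.coe_ne_zero _) (Units.ne_zero _)) h1
  subst hx
  have h2 : (((ζ : (𝓞 K)ˣ) : 𝓞 K) : K) = (((ζ' : (𝓞 K)ˣ) : 𝓞 K) : K) := by
    have h3 : ((((ζ : (𝓞 K)ˣ) : 𝓞 K) : K) * (lam x : K)
        - (((ζ' : (𝓞 K)ˣ) : 𝓞 K) : K) * (lam x : K)) • x.rep = 0 := by
      rw [sub_smul, h1, sub_self]
    rcases smul_eq_zero.1 h3 with h4 | h4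
    · exact mul_right_cancel₀ (Units.ne_zero (lam x)) (sub_eq_zero.1 h4)
    · exact absurd h4 x.rep_nonzero
  have h5 : (ζ : (𝓞 K)ˣ) = ζ' := Units.ext (RingOfIntegers.ext h2)
  exact Prod.ext rfl (Subtype.ext h5)

theorem phi_surj250c (hU : UnitsC K) (hS : ScaleC K) (hc : IsClassRep671 c)
    (hprim : ∀ x, IsPrimRow671 (rowOf ((lam x : K) • x.rep) (g * scF671 (c (ι x)))))
    (hcone : ∀ x, pairOf671 (rowOf ((lam x : K) • x.rep) (g * scF671 (c (ι x))))
      ∈ pairCone671 K)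
    {𝔪 : Ideal (𝓞 K)} {B : ℝ} (i : Fin n) {p : Pair671 K}
    (hp : p ∈ primSet671 𝔪 (B * finNormI671 (c i)) (g * scF671 (c i))) :
    ∃ x ∈ cntB671 𝔪 B g, ∃ ζ : NumberField.Units.torsion K,
      ι x = i ∧ phi250c c g ι lam (x, ζ) = p := by
  obtain ⟨hpc, hpg, ξ, hp, hξprim, hξcong⟩ := hp
  have hξ : ξ ≠ 0 := by
    rw [← hp] at hpc
    exact ne_zero_of_mem_cone250c hpc
  obtain ⟨l₀, hl₀⟩ := Projectivization.exists_smul_eq_mk_rep K ξ hξ
  have hξeq : ξ = ((l₀⁻¹ : Kˣ) : K) • (Projectivization.mk K ξ hξ).rep := by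
    rw [← hl₀, Units.smul_def, smul_smul, Units.val_inv_eq_inv_val,
      inv_mul_cancel₀ (Units.ne_zero l₀), one_smul]
  generalize Projectivization.mk K ξ hξ = x at hξeq
  have hξprim' : IsPrimRow671 (rowOf (((l₀⁻¹ : Kˣ) : K) • x.rep) (g * scF671 (c i))) := by
    rw [← hξeq]
    exact hξprim
  obtain ⟨hi, u, hu⟩ := prim_unique250c hU hc g (hprim x) hξprim'
  subst hi
  have hξeq2 : ξ = ((u : 𝓞 K) : K) • ((lam x : K) • x.rep) := by
    rw [hξeq, hu, mul_smul]
  have hpu : p = unitPair671 u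
      (pairOf671 (rowOf ((lam x : K) • x.rep) (g * scF671 (c (ι x))))) := by
    rw [← hp, hξeq2, pairOf_unit_smul250c]
  have hut : u ∈ NumberField.Units.torsion K := by
    rw [hpu] at hpc
    exact (unit_smul_mem_pairCone671_iff (hcone x) u).mp hpc
  have hxB : x ∈ cntB671 𝔪 B g := by
    constructor
    · have h1 : pairGauge671 p = rowNorm (rowOf x.rep g) * finNormI671 (c (ι x)) := by
        rw [hpu, pairGauge671_unit_smul, gauge_of_prim250c hS (lam x) (hprim x)]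
      rw [h1] at hpg
      exact le_of_mul_le_mul_right hpg (finNormI_pos250c _)
    · rw [hξeq] at hξcong
      exact (cong_smul_scF_iff250c 𝔪 (Units.ne_zero _) x.rep g _).mp hξcong
  exact ⟨x, hxB, ⟨u, hut⟩, rfl, hpu.symm⟩

end Phi

/-- **T7.14.3g CLASS-DEC** (for a totally complex field; `TotCplx K` is only used for the
finiteness of the set of points of bounded height, `H849.cntSet_finite849`). -/
theorem classDecC_of250 (hC : ContentC K) (hU : UnitsC K) (hS : ScaleC K)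
    (hN : Fermat.Agent.LT.T1.AdNormC K) (hK : TotCplx K) : ClassDecC K := by
  intro n c hc 𝔪 g B hB
  classical
  have : Fintype (NumberField.Units.torsion K) := Fintype.ofFinite _
  choose ι lam hprim hcone using
    fun x : Projectivization K (Fin 2 → K) => exists_prim250c hC hc g x.rep_nonzero
  have hfin := cntB_finite250c hN hK 𝔪 g hB
  have hcount := sum_ncard_fibres250c hfin.toFinset ι (phi250c c g ι lam)
    (fun i => primSet671 𝔪 (B * finNormI671 (c i)) (g * scF671 (c i)))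
    (fun x hx ζ => phi_mem250c hS hprim hcone (hfin.mem_toFinset.1 hx) ζ)
    (fun q q' => phi_inj250c q q')
    (fun i p hp => by
      obtain ⟨x, hx, ζ, hi, hpx⟩ := phi_surj250c hU hS hc hprim hcone i hp
      exact ⟨x, hfin.mem_toFinset.2 hx, ζ, hi, hpx⟩)
  have hA : hfin.toFinset.card = (cntB671 𝔪 B g).ncard :=
    (Set.ncard_eq_toFinset_card _ hfin).symm
  have hT : Fintype.card (NumberField.Units.torsion K) = NumberField.Units.torsionOrder K :=
    (Nat.card_eq_fintype_card).symm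
  rw [hA, hT] at hcount
  rw [← Nat.cast_sum, hcount]
  push_cast
  ring

/-- The leaf in the form of the registry row (with the hypothesis `TotCplx K`, which the
consumer `CountLimC K` provides). -/
theorem classDecC_of_T1Out250 (hC : ContentC K) (hU : UnitsC K) (hS : ScaleC K)
    (hT : Fermat.Agent.LT.T1.T1Out K) (hK : TotCplx K) : ClassDecC K :=
  classDecC_of250 hC hU hS hT.adNorm hK

end Fermat.Agent.LT.T7.H250

end
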